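/-
S55, layer G, J-GLUE (input `JHerbrandSpec` of G-FI), COUNT half (helper903).

For `L/K` Galois with group `G = Gal(L/K)`, `S` a finite set of rational primes and `R` a set of
representatives of the `G`-orbits of the places of `L` above `S` (tensor model `SPlace S L`):

  `∏_{r ∈ R} |D_r| = ∏_{v ∈ S_K} e_v f_v`     (`prod_card_decomp_eq`),

given the dictionary `PlacePrimeSpec` (places ↔ primes of `𝓞 L` above `S`, leaf G-PL1).
-/
import Fermat.Agent.S55.G.Spec
import Fermat.Agent.S55.G.OrdH707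
import Fermat.Agent.S55.G.FI.FirstIneqH895

set_option autoImplicit false
set_option linter.unusedSectionVars false
set_option linter.style.haveILetI false
set_option maxHeartbeats 400000

open scoped NumberField TensorProduct
open IsDedekindDomain

noncomputable section

namespace Fermat.Agent.S55.G.JCount903

open Fermat.Agent.S55.G Fermat.Agent.S55.G.OrdH707 Fermat.Agent.S55.G.FIH895

variable (K L : Type) [Field K] [Field L] [NumberField K] [NumberField L] [Algebra K L]
  [IsGalois K L] (S : Finset Nat.Primes)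

/-- helper421's action on primes coincides with helper707's. -/
lemma primeSMul_eq_smulH (τ : L ≃ₐ[K] L) (w : HeightOneSpectrum (𝓞 L)) :
    primeSMul (L ≃ₐ[K] L) τ w = smulH K L τ w := by
  apply HeightOneSpectrum.ext
  rfl

/-- The prime `β r`, viewed as a prime of `L` above `S_K`. -/
def toAbove (β : SPlace S L ≃ PrimeIn S L) (r : SPlace S L) :
    ↥(primesAbove K L (primesOver S K)) :=
  ⟨(β r).1, (Set.ext_iff.mp (primesAbove_primesOver S K L) (β r).1).mpr (β r).2⟩

lemma toAbove_coe (β : SPlace S L ≃ PrimeIn S L) (r : SPlace S L) :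
    ((toAbove K L S β r : ↥(primesAbove K L (primesOver S K))) : HeightOneSpectrum (𝓞 L)) =
      (β r).1 := rfl

lemma toAbove_injective (β : SPlace S L ≃ PrimeIn S L) :
    Function.Injective (toAbove K L S β) := by
  intro r₁ r₂ h
  apply β.injective
  apply Subtype.ext
  exact congrArg (fun w : ↥(primesAbove K L (primesOver S K)) => w.1) h

lemma toAbove_surjective (β : SPlace S L ≃ PrimeIn S L) :
    Function.Surjective (toAbove K L S β) := by
  intro w
  have hw : IsAbove S L w.1 :=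
    (Set.ext_iff.mp (primesAbove_primesOver S K L) w.1).mp w.2
  refine ⟨β.symm ⟨w.1, hw⟩, ?_⟩
  apply Subtype.ext
  rw [toAbove_coe, Equiv.apply_symm_apply]

variable {K L S} in
/-- Equivariance of `toAbove`. -/
lemma toAbove_smul {β : SPlace S L ≃ PrimeIn S L}
    (hβ : ∀ (g : L ≃ₐ[K] L) (𝔪 : SPlace S L),
      (β (sPlaceSMul S (L ≃ₐ[K] L) g 𝔪)).1 = primeSMul (L ≃ₐ[K] L) g (β 𝔪).1)
    (g : L ≃ₐ[K] L) (r : SPlace S L) :
    toAbove K L S β (sPlaceSMul S (L ≃ₐ[K] L) g r) =
      (letI := actX K L (primesOver S K); g • toAbove K L S β r) := by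
  apply Subtype.ext
  rw [toAbove_coe, hβ, actX_coe, toAbove_coe, primeSMul_eq_smulH]

variable {K L S} in
lemma mem_decomp_iff_smul {β : SPlace S L ≃ PrimeIn S L}
    (hβ : ∀ (g : L ≃ₐ[K] L) (𝔪 : SPlace S L),
      (β (sPlaceSMul S (L ≃ₐ[K] L) g 𝔪)).1 = primeSMul (L ≃ₐ[K] L) g (β 𝔪).1)
    (g : L ≃ₐ[K] L) (r : SPlace S L) :
    g ∈ decomp S (L ≃ₐ[K] L) r ↔
      g ∈ (letI := actX K L (primesOver S K);
        MulAction.stabilizer (L ≃ₐ[K] L) (toAbove K L S β r)) := by
  letI := actX K L (primesOver S K)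
  rw [mem_decomp_iff, MulAction.mem_stabilizer_iff, ← toAbove_smul hβ]
  constructor
  · intro h
    rw [h]
  · intro h
    exact toAbove_injective K L S β h

variable {K L S} in
/-- `|D_r| = e_v f_v` for the prime `v` of `K` below `β r`. -/
lemma card_decomp {β : SPlace S L ≃ PrimeIn S L}
    (hβ : ∀ (g : L ≃ₐ[K] L) (𝔪 : SPlace S L),
      (β (sPlaceSMul S (L ≃ₐ[K] L) g 𝔪)).1 = primeSMul (L ≃ₐ[K] L) g (β 𝔪).1)
    (r : SPlace S L) :
    Nat.card (decomp S (L ≃ₐ[K] L) r) =
      (below K L (primesOver S K) (toAbove K L S β r)).1.asIdeal.ramificationIdxIn (𝓞 L) *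
        (below K L (primesOver S K) (toAbove K L S β r)).1.asIdeal.inertiaDegIn (𝓞 L) := by
  rw [← card_stabilizer K L (primesOver S K) (toAbove K L S β r)]
  letI := actX K L (primesOver S K)
  have h : decomp S (L ≃ₐ[K] L) r =
      MulAction.stabilizer (L ≃ₐ[K] L) (toAbove K L S β r) := by
    ext g
    exact mem_decomp_iff_smul hβ g r
  rw [h]

/-- **COUNT.**  For a set `R` of representatives of the `Gal(L/K)`-orbits of the places of `L`
above `S`:  `∏_{r ∈ R} |D_r| = ∏_{v ∈ S_K} e_v f_v`. -/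
theorem prod_card_decomp_eq (hPP : PlacePrimeSpec) (R : Finset (SPlace S L))
    (hR : ∀ 𝔪 : SPlace S L, ∃! r : SPlace S L,
      r ∈ R ∧ ∃ g : L ≃ₐ[K] L, sPlaceSMul S (L ≃ₐ[K] L) g r = 𝔪) :
    ∏ r ∈ R, Nat.card (decomp S (L ≃ₐ[K] L) r) = finDegProd K L (primesOver S K) := by
  classical
  obtain ⟨β, hβ', -⟩ := hPP S L
  have hβ : ∀ (g : L ≃ₐ[K] L) (𝔪 : SPlace S L),
      (β (sPlaceSMul S (L ≃ₐ[K] L) g 𝔪)).1 = primeSMul (L ≃ₐ[K] L) g (β 𝔪).1 :=
    fun g 𝔪 => hβ' (L ≃ₐ[K] L) g 𝔪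
  letI := actX K L (primesOver S K)
  unfold finDegProd
  refine Finset.prod_bij
    (fun r _ => (below K L (primesOver S K) (toAbove K L S β r)).1) ?_ ?_ ?_ ?_
  · intro r _
    exact (below K L (primesOver S K) (toAbove K L S β r)).2
  · intro r₁ h₁ r₂ h₂ h
    have hb : below K L (primesOver S K) (toAbove K L S β r₁) =
        below K L (primesOver S K) (toAbove K L S β r₂) := Subtype.ext h
    obtain ⟨τ, hτ⟩ := exists_smul_eq_of_below_eq K L (primesOver S K) _ _ hb
    rw [← toAbove_smul hβ] at hτ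
    have hτ' := toAbove_injective K L S β hτ
    obtain ⟨r, -, hu⟩ := hR r₂
    have e₁ : r₁ = r := hu r₁ ⟨h₁, τ, hτ'⟩
    have e₂ : r₂ = r := hu r₂ ⟨h₂, 1, (sPlaceAction S (L ≃ₐ[K] L) L).one_smul r₂⟩
    rw [e₁, e₂]
  · intro v hv
    obtain ⟨w, hw⟩ := exists_above K L (primesOver S K) ⟨v, hv⟩
    obtain ⟨𝔪, rfl⟩ := toAbove_surjective K L S β w
    obtain ⟨r, ⟨hrR, g, hg⟩, -⟩ := hR 𝔪
    refine ⟨r, hrR, ?_⟩
    have : below K L (primesOver S K) (toAbove K L S β r) = ⟨v, hv⟩ := by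
      rw [← hw, ← hg, toAbove_smul hβ, below_smul]
    rw [this]
  · intro r _
    exact card_decomp hβ r

end Fermat.Agent.S55.G.JCount903
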