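/-
S55, layer G, J-GLUE, COUNT half (helper903): subtype form and `Prop` form of
`JCount903.prod_card_decomp_eq` (hypothesis shape `hCount` of helper604's `jHerbrand_of`).
-/
import Fermat.Agent.S55.G.JCount903.Count

set_option autoImplicit false
set_option linter.unusedSectionVars false

open scoped NumberField TensorProduct
open IsDedekindDomain

noncomputable section

namespace Fermat.Agent.S55.G.JCount903

open Fermat.Agent.S55.G Fermat.Agent.S55.G.OrdH707 Fermat.Agent.S55.G.FIH895

/-- **COUNT**, subtype form: `∏_{r : R} |D_r| = ∏_{v ∈ S_K} e_v f_v`. -/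
theorem prod_card_decomp_eq' (K L : Type) [Field K] [Field L] [NumberField K] [NumberField L]
    [Algebra K L] [IsGalois K L] (S : Finset Nat.Primes) (hPP : PlacePrimeSpec)
    (R : Finset (SPlace S L))
    (hR : ∀ 𝔪 : SPlace S L, ∃! r : SPlace S L,
      r ∈ R ∧ ∃ g : L ≃ₐ[K] L, sPlaceSMul S (L ≃ₐ[K] L) g r = 𝔪) :
    ∏ r : R, Nat.card (decomp S (L ≃ₐ[K] L) r.1) = finDegProd K L (primesOver S K) := by
  rw [← prod_card_decomp_eq K L S hPP R hR]
  exact Finset.prod_coe_sort R (fun r => Nat.card (decomp S (L ≃ₐ[K] L) r))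

/-- The COUNT statement as a `Prop` (hypothesis shape for the J-glue). -/
def JCountStatement : Prop :=
  ∀ (K L : Type) [Field K] [Field L] [NumberField K] [NumberField L] [Algebra K L]
    [IsGalois K L] (S : Finset Nat.Primes) (R : Finset (SPlace S L)),
    (∀ 𝔪 : SPlace S L, ∃! r : SPlace S L,
      r ∈ R ∧ ∃ g : L ≃ₐ[K] L, sPlaceSMul S (L ≃ₐ[K] L) g r = 𝔪) →
    ∏ r : R, Nat.card (decomp S (L ≃ₐ[K] L) r.1) = finDegProd K L (primesOver S K)

/-- COUNT from the places ↔ primes dictionary. -/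
theorem jCount_of (hPP : PlacePrimeSpec) : JCountStatement :=
  fun K L _ _ _ _ _ _ S R hR => prod_card_decomp_eq' K L S hPP R hR

end Fermat.Agent.S55.G.JCount903
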